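import Fermat.Agent.S56.H906.LemmaA
import Fermat.Agent.S19.H435.Quot

/-!
# S56 / FLAT-O, piece (FU): unit resolvent = "peu ramifié" (helper664)

`flatUnit : Fermat.Agent.S56.H906.FlatUnitStatement` (verbatim, unconditional).

Route (no convolution ring, no Galois descent, no discreteness; inertia is not used):
* `span_Qb_eq_top`, `exists_Qb_basis`: a `ℤ_(p)`-basis of the Hopf lattice is a `ℚ̄`-basis of all
  functions `M → ℚ̄` (separation).
* `isIntegral_coord_of_mul`: the coordinates `c_i` of a character `χ` of `M` in that basis span a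
  `ℤ_(p)`-module closed under multiplication (structure constants of the comultiplication), so
  they are integral over `ℤ_(p)`, hence lie in `P`.
* `mem_span_fixedInt` (saturation, first section) applied to the space `W` of coordinate
  vectors of functions `F` with `F(y + t) = χ(t) F(y)` (`t ∈ L`): `χ = ∑ a_j F_j` with `a_j ∈ P` and
  `F_j ∈ W` integral with `H`-fixed coordinates; since `χ(x)` is a unit some `F_j(x)` is a unit.
-/

set_option autoImplicit false
set_option linter.unusedSectionVars false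
set_option linter.style.haveILetI false

noncomputable section

namespace Fermat.Agent.S56.H664

open Fermat.Agent.S56 Fermat.Agent.S56.H906

/-! ## Saturation

`K` a field, `P` a valuation subring, `T` a set of ring endomorphisms of `K`, `W ⊆ K^ι` a
`K`-subspace stable under the coordinatewise action of `T`.  Then every vector of `W` with
coordinates in `P` is a `P`-linear combination of vectors of `W` with coordinates in `P` which are
fixed by `T`.  Proof: one induction on `dim W`; a nonzero vector of `W` with minimal support,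
normalised at a coordinate of maximal valuation, is fixed by `T` and has coordinates in `P`;
subtract a multiple of it and pass to the subspace of `W` where that coordinate vanishes. -/

section Sat

variable {K : Type*} [Field K] (P : ValuationSubring K) (T : Set (K →+* K))
  {ι : Type*} [Fintype ι]

/-- The vectors of `W` with coordinates in `P` which are fixed by `T`. -/
def fixedInt (W : Submodule K (ι → K)) : Set (ι → K) :=
  {c | c ∈ W ∧ (∀ i, c i ∈ P) ∧ ∀ σ ∈ T, ∀ i, σ (c i) = c i}

omit [Fintype ι] in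
theorem fixedInt_mono {W W' : Submodule K (ι → K)} (h : W' ≤ W) :
    fixedInt P T W' ⊆ fixedInt P T W :=
  fun _ hc => ⟨h hc.1, hc.2.1, hc.2.2⟩

theorem mem_span_fixedInt_aux (d : ℕ) :
    ∀ (W : Submodule K (ι → K)), Module.finrank K W = d →
      (∀ σ ∈ T, ∀ c ∈ W, (fun i => σ (c i)) ∈ W) →
      ∀ z ∈ W, (∀ i, z i ∈ P) → z ∈ Submodule.span P (fixedInt P T W) := by
  classical
  induction d using Nat.strong_induction_on with
  | _ d ih =>
    intro W hd hW z hz hzP
    by_cases hz0 : z = 0
    · rw [hz0]; exact Submodule.zero_mem _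
    -- a nonzero vector of minimal support
    let supp : (ι → K) → Finset ι := fun c => Finset.univ.filter (fun i => c i ≠ 0)
    have hex : ∃ k : ℕ, ∃ w ∈ W, w ≠ 0 ∧ (supp w).card = k := ⟨_, z, hz, hz0, rfl⟩
    obtain ⟨w, hwW, hw0, hwk⟩ := Nat.find_spec hex
    have hmin : ∀ w' ∈ W, w' ≠ 0 → (supp w).card ≤ (supp w').card := by
      intro w' hw' hw'0
      rw [hwk]
      exact Nat.find_min' hex ⟨w', hw', hw'0, rfl⟩
    have hne : (supp w).Nonempty := by
      by_contra hcon
      rw [Finset.not_nonempty_iff_eq_empty] at hcon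
      apply hw0
      funext i
      by_contra hi
      have : i ∈ supp w := Finset.mem_filter.mpr ⟨Finset.mem_univ _, hi⟩
      rw [hcon] at this
      exact absurd this (Finset.notMem_empty _)
    obtain ⟨i₁, hi₁, hmax⟩ := Finset.exists_max_image (supp w) (fun i => P.valuation (w i)) hne
    have hwi₁ : w i₁ ≠ 0 := (Finset.mem_filter.mp hi₁).2
    -- the normalised vector
    set w₂ : ι → K := (w i₁)⁻¹ • w with hw₂
    have hw₂W : w₂ ∈ W := W.smul_mem _ hwW
    have hw₂i : ∀ i, w₂ i = (w i₁)⁻¹ * w i := fun i => rfl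
    have hw₂1 : w₂ i₁ = 1 := by rw [hw₂i, inv_mul_cancel₀ hwi₁]
    have hw₂P : ∀ i, w₂ i ∈ P := by
      intro i
      by_cases hi : w i = 0
      · rw [hw₂i, hi, mul_zero]; exact P.zero_mem
      · have hmem : i ∈ supp w := Finset.mem_filter.mpr ⟨Finset.mem_univ _, hi⟩
        have hle := hmax i hmem
        rw [← ValuationSubring.valuation_le_one_iff, hw₂i, map_mul, map_inv₀]
        have hpos : (0 : _) < P.valuation (w i₁) := by
          rw [Valuation.pos_iff]; exact hwi₁
        rw [inv_mul_le_iff₀ hpos, mul_one]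
        exact hle
    have hw₂0 : ∀ i, w i = 0 → w₂ i = 0 := fun i hi => by rw [hw₂i, hi, mul_zero]
    have hw₂fix : ∀ σ ∈ T, ∀ i, σ (w₂ i) = w₂ i := by
      intro σ hσ
      set u : ι → K := (fun i => σ (w₂ i)) - w₂ with hu
      have huW : u ∈ W := W.sub_mem (hW σ hσ w₂ hw₂W) hw₂W
      have hu0 : u = 0 := by
        by_contra hune
        have h1 := hmin u huW hune
        have h2 : supp u ⊂ supp w := by
          rw [Finset.ssubset_iff_of_subset]
          · refine ⟨i₁, hi₁, ?_⟩
            intro hmem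
            have := (Finset.mem_filter.mp hmem).2
            apply this
            show σ (w₂ i₁) - w₂ i₁ = 0
            rw [hw₂1, map_one, sub_self]
          · intro i hi
            have hui := (Finset.mem_filter.mp hi).2
            refine Finset.mem_filter.mpr ⟨Finset.mem_univ _, ?_⟩
            intro hwi
            apply hui
            show σ (w₂ i) - w₂ i = 0
            rw [hw₂0 i hwi, map_zero, sub_self]
        exact absurd (Finset.card_lt_card h2) (not_lt.mpr h1)
      intro i
      have := congrFun hu0 i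
      exact sub_eq_zero.mp this
    have hw₂mem : w₂ ∈ fixedInt P T W := ⟨hw₂W, hw₂P, hw₂fix⟩
    -- the smaller subspace
    set W' : Submodule K (ι → K) :=
      W ⊓ LinearMap.ker (LinearMap.proj i₁ : (ι → K) →ₗ[K] K) with hW'
    have hW'le : W' ≤ W := inf_le_left
    have hW'lt : W' < W := by
      refine lt_of_le_of_ne hW'le ?_
      intro heq
      have : w₂ ∈ W' := by rw [heq]; exact hw₂W
      have h0 : w₂ i₁ = 0 := (Submodule.mem_inf.mp this).2
      rw [hw₂1] at h0
      exact one_ne_zero h0
    have hfin : Module.finrank K W' < d := by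
      rw [← hd]
      exact Submodule.finrank_lt_finrank_of_lt hW'lt
    have hW'stab : ∀ σ ∈ T, ∀ c ∈ W', (fun i => σ (c i)) ∈ W' := by
      intro σ hσ c hc
      refine Submodule.mem_inf.mpr ⟨hW σ hσ c (Submodule.mem_inf.mp hc).1, ?_⟩
      have h0 : c i₁ = 0 := (Submodule.mem_inf.mp hc).2
      show σ (c i₁) = 0
      rw [h0, map_zero]
    set z' : ι → K := z - (z i₁) • w₂ with hz'
    have hz'W : z' ∈ W' := by
      refine Submodule.mem_inf.mpr ⟨W.sub_mem hz (W.smul_mem _ hw₂W), ?_⟩
      show z i₁ - z i₁ * w₂ i₁ = 0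
      rw [hw₂1, mul_one, sub_self]
    have hz'P : ∀ i, z' i ∈ P := by
      intro i
      show z i - z i₁ * w₂ i ∈ P
      exact sub_mem (hzP i) (mul_mem (hzP i₁) (hw₂P i))
    have h1 : z' ∈ Submodule.span P (fixedInt P T W) :=
      Submodule.span_mono (fixedInt_mono P T hW'le)
        (ih _ hfin W' rfl hW'stab z' hz'W hz'P)
    have h2 : (⟨z i₁, hzP i₁⟩ : P) • w₂ ∈ Submodule.span P (fixedInt P T W) :=
      Submodule.smul_mem _ _ (Submodule.subset_span hw₂mem)
    have h3 : z = z' + (⟨z i₁, hzP i₁⟩ : P) • w₂ := by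
      funext i
      show z i = z i - z i₁ * w₂ i + z i₁ * w₂ i
      ring
    rw [h3]
    exact Submodule.add_mem _ h1 h2

/-- **Saturation.**  Every vector of a `T`-stable subspace `W` with coordinates in `P` is a
`P`-linear combination of `T`-fixed vectors of `W` with coordinates in `P`. -/
theorem mem_span_fixedInt (W : Submodule K (ι → K))
    (hW : ∀ σ ∈ T, ∀ c ∈ W, (fun i => σ (c i)) ∈ W)
    {z : ι → K} (hz : z ∈ W) (hzP : ∀ i, z i ∈ P) :
    z ∈ Submodule.span P (fixedInt P T W) :=
  mem_span_fixedInt_aux P T _ W rfl hW z hz hzP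

end Sat

section Span

variable {p : ℕ} [Fact p.Prime] {M : Type} [AddCommGroup M] [Finite M] {act : GQ → M → M}
  {Λ : Subalgebra (Zp p) (M → Qb)}

/-- The `ℚ̄`-span of a Hopf lattice is the space of all functions. -/
theorem span_Qb_eq_top (hΛ : IsHL p act Λ) :
    Submodule.span Qb (Λ : Set (M → Qb)) = ⊤ := by
  classical
  letI : Fintype M := Fintype.ofFinite M
  have hadj : Submodule.span Qb (Λ : Set (M → Qb)) =
      Subalgebra.toSubmodule (Algebra.adjoin Qb (Λ : Set (M → Qb))) := by
    rw [Algebra.adjoin_eq_span]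
    congr 1
    have : (Λ : Set (M → Qb)) = ((Λ.toSubmonoid : Submonoid (M → Qb)) : Set (M → Qb)) := rfl
    rw [this, Submonoid.closure_eq]
  rw [hadj]
  set A := Algebra.adjoin Qb (Λ : Set (M → Qb)) with hA
  have hind : ∀ m : M, (Pi.single m (1 : Qb) : M → Qb) ∈ A := by
    intro m
    have hsep : ∀ n : M, ∃ g ∈ A, g m = 1 ∧ (n ≠ m → g n = 0) := by
      intro n
      by_cases hn : n = m
      · exact ⟨1, A.one_mem, rfl, fun h => absurd hn h⟩
      · obtain ⟨f, hf, hfne⟩ := hΛ.separates m n (Ne.symm hn)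
        have hfA : f ∈ A := Algebra.subset_adjoin hf
        have hne : f m - f n ≠ 0 := sub_ne_zero.mpr hfne
        refine ⟨(f m - f n)⁻¹ • (f - algebraMap Qb (M → Qb) (f n)),
          A.smul_mem (A.sub_mem hfA (A.algebraMap_mem _)) _, ?_, fun _ => ?_⟩
        · show (f m - f n)⁻¹ * (f m - f n) = 1
          exact inv_mul_cancel₀ hne
        · show (f m - f n)⁻¹ * (f n - f n) = 0
          rw [sub_self, mul_zero]
    choose g hgA hgm hgn using hsep
    have hprod : (Pi.single m (1 : Qb) : M → Qb) = ∏ n, g n := by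
      funext y
      rw [Finset.prod_apply]
      by_cases hy : y = m
      · subst hy
        rw [Pi.single_eq_same]
        exact (Finset.prod_eq_one fun n _ => hgm n).symm
      · rw [Pi.single_eq_of_ne hy]
        exact (Finset.prod_eq_zero (f := fun c => g c y) (Finset.mem_univ y) (hgn y hy)).symm
    rw [hprod]
    exact A.prod_mem fun n _ => hgA n
  rw [eq_top_iff]
  intro F _
  have hF : F = ∑ m, F m • (Pi.single m (1 : Qb) : M → Qb) := by
    funext y
    rw [Finset.sum_apply]
    simp [Pi.single_apply]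
  rw [hF]
  exact Submodule.sum_mem _ fun m _ => Submodule.smul_mem _ _ (hind m)

/-- A `ℚ̄`-basis of the space of functions made of lattice elements, in which the lattice has
coordinates in `ℤ_(p)`. -/
theorem exists_Qb_basis (hΛ : IsHL p act Λ) :
    ∃ (n : ℕ) (B : Module.Basis (Fin n) Qb (M → Qb)), (∀ i, B i ∈ Λ) ∧
      ∀ f ∈ Λ, ∀ i, ∃ r : Zp p, B.coord i f = algebraMap (Zp p) Qb r := by
  obtain ⟨n, e, he, -, hli, hexp⟩ := Fermat.Agent.S19.H435.IsHopfLattice.exists_basis hΛ
  have hsmul : ∀ (r : Zp p) (f : M → Qb), r • f = (algebraMap (Zp p) Qb r) • f := by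
    intro r f
    funext y
    show r • f y = algebraMap (Zp p) Qb r * f y
    rw [Algebra.smul_def]
  have hsp : ⊤ ≤ Submodule.span Qb (Set.range e) := by
    rw [← span_Qb_eq_top hΛ]
    refine Submodule.span_le.mpr ?_
    intro f hf
    obtain ⟨c, rfl⟩ := hexp f hf
    refine Submodule.sum_mem _ fun i _ => ?_
    rw [hsmul]
    exact Submodule.smul_mem _ _ (Submodule.subset_span ⟨i, rfl⟩)
  refine ⟨n, Module.Basis.mk hli hsp, fun i => by rw [Module.Basis.coe_mk]; exact he i, ?_⟩
  intro f hf i
  obtain ⟨c, rfl⟩ := hexp f hf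
  refine ⟨c i, ?_⟩
  rw [map_sum]
  have hterm : ∀ j, (Module.Basis.mk hli hsp).coord i (c j • e j) =
      if j = i then algebraMap (Zp p) Qb (c j) else 0 := by
    intro j
    have hej : e j = (Module.Basis.mk hli hsp) j := by rw [Module.Basis.coe_mk]
    rw [hsmul, map_smul, hej, Module.Basis.coord_apply, Module.Basis.repr_self,
      Finsupp.single_apply, smul_eq_mul]
    split_ifs <;> simp
  simp_rw [hterm]
  rw [Finset.sum_ite_eq' Finset.univ i]
  simp

end Span

section Theta

variable {M : Type} [AddCommGroup M] {n : ℕ} (B : Module.Basis (Fin n) Qb (M → Qb))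

/-- `Θ_{jk} f = coord_j (x ↦ coord_k (y ↦ f (x + y)))`. -/
def theta (j k : Fin n) : (M → Qb) →ₗ[Qb] Qb :=
  (B.coord j).comp
    (LinearMap.pi fun x : M => (B.coord k).comp (LinearMap.funLeft Qb Qb (fun y : M => x + y)))

theorem theta_apply (j k : Fin n) (f : M → Qb) :
    theta B j k f = B.coord j (fun x => B.coord k (fun y => f (x + y))) := rfl

/-- `Θ_{jk}` of a function with a decomposition `f (x + y) = ∑ a_l x * b_l y`. -/
theorem theta_of_comul (j k : Fin n) (f : M → Qb) {m : ℕ} (a b : Fin m → M → Qb)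
    (hab : ∀ x y, f (x + y) = ∑ l, a l x * b l y) :
    theta B j k f = ∑ l, B.coord k (b l) * B.coord j (a l) := by
  rw [theta_apply]
  have h1 : ∀ x : M, (fun y => f (x + y)) = ∑ l, a l x • b l := by
    intro x
    funext y
    rw [hab, Finset.sum_apply]
    rfl
  have h2 : (fun x => B.coord k (fun y => f (x + y))) = ∑ l, B.coord k (b l) • a l := by
    funext x
    rw [h1, map_sum, Finset.sum_apply]
    refine Finset.sum_congr rfl fun l _ => ?_
    rw [map_smul, smul_eq_mul, Pi.smul_apply, smul_eq_mul, mul_comm]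
  rw [h2, map_sum]
  refine Finset.sum_congr rfl fun l _ => ?_
  rw [map_smul, smul_eq_mul]

/-- `Θ_{jk}` of a multiplicative function. -/
theorem theta_of_mul (j k : Fin n) (χ : M → Qb) (hχ : ∀ x y, χ (x + y) = χ x * χ y) :
    theta B j k χ = B.coord k χ * B.coord j χ := by
  have := theta_of_comul B j k χ (m := 1) (fun _ => χ) (fun _ => χ)
    (fun x y => by rw [hχ]; simp)
  rw [this]
  simp

end Theta

section Char

variable {p : ℕ} [Fact p.Prime] {M : Type} [AddCommGroup M] [Finite M] {act : GQ → M → M}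
  {Λ : Subalgebra (Zp p) (M → Qb)}

omit [Fact (Nat.Prime p)] [Finite M] in
/-- `Θ_{jk}` maps the lattice to `ℤ_(p)`. -/
theorem theta_mem (hΛ : IsHL p act Λ) {n : ℕ} (B : Module.Basis (Fin n) Qb (M → Qb))
    (hcoord : ∀ f ∈ Λ, ∀ i, ∃ r : Zp p, B.coord i f = algebraMap (Zp p) Qb r)
    (j k : Fin n) {f : M → Qb} (hf : f ∈ Λ) :
    ∃ r : Zp p, theta B j k f = algebraMap (Zp p) Qb r := by
  obtain ⟨m, a, b, ha, hb, hab⟩ := hΛ.comul_mem f hf
  choose α hα using fun l => hcoord (a l) (ha l) j
  choose β hβ using fun l => hcoord (b l) (hb l) k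
  refine ⟨∑ l, β l * α l, ?_⟩
  rw [theta_of_comul B j k f a b hab, map_sum]
  refine Finset.sum_congr rfl fun l _ => ?_
  rw [hα, hβ, map_mul]

/-- The coordinates of a nonzero multiplicative function in a lattice basis are integral over
`ℤ_(p)`. -/
theorem isIntegral_coord_of_mul (hΛ : IsHL p act Λ) {n : ℕ}
    (B : Module.Basis (Fin n) Qb (M → Qb)) (hB : ∀ i, B i ∈ Λ)
    (hcoord : ∀ f ∈ Λ, ∀ i, ∃ r : Zp p, B.coord i f = algebraMap (Zp p) Qb r)
    (χ : M → Qb) (hχ : ∀ x y, χ (x + y) = χ x * χ y) (hχ0 : χ ≠ 0) (j : Fin n) :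
    IsIntegral (Zp p) (B.coord j χ) := by
  classical
  set c : Fin n → Qb := fun i => B.coord i χ with hc
  have hsum : χ = ∑ i, c i • B i := (B.sum_repr χ).symm
  set C : Submodule (Zp p) Qb := Submodule.span (Zp p) (Set.range c) with hC
  have hne : C ≠ ⊥ := by
    intro hbot
    apply hχ0
    rw [hsum]
    refine Finset.sum_eq_zero fun i _ => ?_
    have : c i ∈ C := Submodule.subset_span ⟨i, rfl⟩
    rw [hbot, Submodule.mem_bot] at this
    rw [this, zero_smul]
  have hfg : C.FG := Submodule.fg_span (Set.finite_range c)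
  have hmul : ∀ k, c j * c k ∈ C := by
    intro k
    have h1 : c j * c k = theta B k j χ := by
      rw [theta_of_mul B k j χ hχ]
    have h2 : theta B k j χ = ∑ i, c i * theta B k j (B i) := by
      refine (congrArg (theta B k j) hsum).trans ?_
      rw [map_sum]
      refine Finset.sum_congr rfl fun i _ => ?_
      rw [map_smul, smul_eq_mul]
    rw [h1, h2]
    refine Submodule.sum_mem _ fun i _ => ?_
    obtain ⟨r, hr⟩ := theta_mem hΛ B hcoord k j (hB i)
    rw [hr, mul_comm, ← Algebra.smul_def]
    exact Submodule.smul_mem _ _ (Submodule.subset_span ⟨i, rfl⟩)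
  refine isIntegral_of_smul_mem_submodule C hne hfg (c j) ?_
  intro y hy
  induction hy using Submodule.span_induction with
  | mem y hy =>
    obtain ⟨k, rfl⟩ := hy
    exact hmul k
  | zero => rw [smul_zero]; exact Submodule.zero_mem _
  | add a b _ _ ha hb => rw [smul_add]; exact Submodule.add_mem _ ha hb
  | smul r a _ ha =>
    rw [smul_comm]
    exact Submodule.smul_mem _ _ ha

end Char


/-- **(FU)** unit resolvent: the Kummer characters attached to a flat module are Kummer
characters of `P`-units. -/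
theorem flatUnit : FlatUnitStatement := by
  intro p _ M _ _ act Λ hΛ _ P hP ζ hζ L hL1 hL2 ξ x
  classical
  have hp : p.Prime := Fact.out
  obtain ⟨n, B, hB, hcoord⟩ := exists_Qb_basis hΛ
  -- the character `χ = ζ ^ ξ`
  set χ : M → Qb := fun y => ζ ^ (ξ y).val with hχdef
  have hζp : ζ ^ p = 1 := hζ.pow_eq_one
  haveI : NeZero p := ⟨hp.ne_zero⟩
  have hχadd : ∀ y t, χ (y + t) = χ y * χ t := by
    intro y t
    show ζ ^ (ξ (y + t)).val = ζ ^ (ξ y).val * ζ ^ (ξ t).val
    rw [map_add, ZMod.val_add, ← pow_add, ← pow_eq_pow_mod _ hζp]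
  have hχ0 : χ 0 = 1 := by
    show ζ ^ (ξ 0).val = 1
    rw [map_zero, ZMod.val_zero, pow_zero]
  have hχne : χ ≠ 0 := by
    intro h
    have := congrFun h 0
    rw [hχ0] at this
    exact one_ne_zero this
  have hvζ : P.valuation ζ = 1 := by
    have h1 : P.valuation ζ ^ p = 1 := by rw [← map_pow, hζp, map_one]
    rcases lt_trichotomy (P.valuation ζ) 1 with h | h | h
    · exact absurd h1 (ne_of_lt (pow_lt_one₀ zero_le h hp.ne_zero))
    · exact h
    · exact absurd h1 (ne_of_gt (one_lt_pow₀ h hp.ne_zero))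
  have hvχ : ∀ y, P.valuation (χ y) = 1 := by
    intro y
    show P.valuation (ζ ^ (ξ y).val) = 1
    rw [map_pow, hvζ, one_pow]
  -- coordinates
  set comb : (Fin n → Qb) →ₗ[Qb] (M → Qb) := Fintype.linearCombination Qb B with hcomb
  have hcomb_apply : ∀ (d : Fin n → Qb) (y : M), comb d y = ∑ i, d i * B i y := by
    intro d y
    rw [hcomb, Fintype.linearCombination_apply, Finset.sum_apply]
    rfl
  set c : Fin n → Qb := fun i => B.coord i χ with hc
  have hcχ : comb c = χ := by
    rw [hcomb, Fintype.linearCombination_apply]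
    exact B.sum_repr χ
  have hcP : ∀ i, c i ∈ P := fun i =>
    mem_of_isIntegral_zp P hp hP (isIntegral_coord_of_mul hΛ B hB hcoord χ hχadd hχne i)
  -- the subspace `W`
  let W : Submodule Qb (Fin n → Qb) :=
    { carrier := {d | ∀ y : M, ∀ t ∈ L, comb d (y + t) = χ t * comb d y}
      add_mem' := by
        intro a b ha hb y t ht
        rw [map_add, Pi.add_apply, Pi.add_apply, ha y t ht, hb y t ht, mul_add]
      zero_mem' := by
        intro y t _
        rw [map_zero, Pi.zero_apply, Pi.zero_apply, mul_zero]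
      smul_mem' := by
        intro r a ha y t ht
        rw [map_smul, Pi.smul_apply, Pi.smul_apply, ha y t ht, smul_eq_mul, smul_eq_mul]
        ring }
  have hWmem : ∀ d, d ∈ W ↔ ∀ y : M, ∀ t ∈ L, comb d (y + t) = χ t * comb d y :=
    fun d => Iff.rfl
  -- the acting maps
  let T : Set (Qb →+* Qb) :=
    {f | ∃ σ : GQ, σ ∈ P.inertiaSubgroupIn ℚ ∧ σ ζ = ζ ∧ ∀ a, f a = σ a}
  have hσχ : ∀ σ : GQ, σ ζ = ζ → ∀ t, σ (χ t) = χ t := by
    intro σ hσ t
    show σ (ζ ^ (ξ t).val) = ζ ^ (ξ t).val
    rw [map_pow, hσ]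
  have hcombσ : ∀ (σ : GQ) (d : Fin n → Qb) (y : M),
      comb (fun i => σ (d i)) y = σ (comb d (act σ⁻¹ y)) := by
    intro σ d y
    rw [hcomb_apply, hcomb_apply, map_sum]
    refine Finset.sum_congr rfl fun i _ => ?_
    rw [map_mul, ← hΛ.equivariant _ (hB i) σ,
      Fermat.Agent.S19.H435.IsHopfLattice.act_act_inv hΛ]
  have hWstab : ∀ f ∈ T, ∀ d ∈ W, (fun i => f (d i)) ∈ W := by
    rintro f ⟨σ, hσI, hσζ, hfσ⟩ d hd
    have hfd : (fun i => f (d i)) = fun i => σ (d i) := funext fun i => hfσ (d i)
    rw [hfd, hWmem]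
    intro y t ht
    have hinvI : σ⁻¹ ∈ P.inertiaSubgroupIn ℚ := inv_mem hσI
    have hinvζ : σ⁻¹ ζ = ζ := by
      have := congrArg (σ⁻¹ : GQ) hσζ
      rw [← this]
      exact (AlgEquiv.symm_apply_apply σ ζ)
    rw [hcombσ, hcombσ, Fermat.Agent.S19.H435.IsHopfLattice.act_add hΛ,
      hL1 σ⁻¹ hinvI hinvζ t ht, hd _ t ht, map_mul, hσχ σ hσζ]
  have hcW : c ∈ W := by
    rw [hWmem]
    intro y t _
    rw [hcχ, hχadd, mul_comm]
  -- saturation
  have hsat := mem_span_fixedInt P T W hWstab hcW hcP
  -- values at `x` of integral vectors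
  have hvalP : ∀ d : Fin n → Qb, (∀ i, d i ∈ P) → comb d x ∈ P := by
    intro d hd
    rw [hcomb_apply]
    exact sum_mem fun i _ => mul_mem (hd i) (apply_mem P hΛ hP (hB i) x)
  -- some `T`-fixed integral vector of `W` has a unit value at `x`
  have hex : ∃ d ∈ fixedInt P T W, P.valuation (comb d x) = 1 := by
    by_contra hcon
    push Not at hcon
    have hlt : ∀ d ∈ fixedInt P T W, P.valuation (comb d x) < 1 := by
      intro d hd
      refine lt_of_le_of_ne ?_ (hcon d hd)
      rw [ValuationSubring.valuation_le_one_iff]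
      exact hvalP d hd.2.1
    have hall : ∀ z ∈ Submodule.span P (fixedInt P T W), P.valuation (comb z x) < 1 := by
      intro z hz
      induction hz using Submodule.span_induction with
      | mem d hd => exact hlt d hd
      | zero => rw [map_zero, Pi.zero_apply, map_zero]; exact zero_lt_one
      | add a b _ _ ha hb =>
        rw [map_add, Pi.add_apply]
        exact Valuation.map_add_lt _ ha hb
      | smul a z _ hz =>
        have h1 : (a • z : Fin n → Qb) = (a : Qb) • z := rfl
        rw [h1, map_smul, Pi.smul_apply, smul_eq_mul, map_mul]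
        have ha : P.valuation (a : Qb) ≤ 1 := by
          rw [ValuationSubring.valuation_le_one_iff]
          exact a.2
        exact mul_lt_of_le_one_of_lt ha hz
    have := hall c hsat
    rw [hcχ, hvχ] at this
    exact lt_irrefl _ this
  obtain ⟨d, hd, hdval⟩ := hex
  refine ⟨comb d x, hdval, ?_⟩
  intro σ hσI hσζ
  have hdfix : ∀ i, σ (d i) = d i := by
    intro i
    let f : Qb →+* Qb := (σ : Qb ≃ₐ[ℚ] Qb).toAlgHom.toRingHom
    have hf : f ∈ T := ⟨σ, hσI, hσζ, fun _ => rfl⟩
    exact hd.2.2 f hf i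
  have h1 : σ (comb d x) = comb d (act σ x) := by
    rw [hcomb_apply, hcomb_apply, map_sum]
    refine Finset.sum_congr rfl fun i _ => ?_
    rw [map_mul, hdfix, hΛ.equivariant _ (hB i) σ]
  have h2 : act σ x = x + (act σ x - x) := by abel
  rw [h1, h2, hd.1 x _ (hL2 σ hσI hσζ x)]
  congr 2
  abel_nf

end Fermat.Agent.S56.H664

end
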